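/-
S23, package P9b (helper6): a cusp form on `Gamma0 N` whose `q`-expansion has rational
coefficients has bounded denominators.

Inputs: P1 (level-one forms are spanned by forms with bounded denominators), P2 (the Vieta and
Lagrange relations for the `SL(2,ℤ)`-translates, with level-one coefficients), P3 (a separating
form with bounded denominators), and the modular-form-free algebra core of helper55.
-/
import Mathlib
import Fermat.Prelude.Thm_CongruenceSubgroup_one_mem_strictPeriods_Gamma0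
import Fermat.Agent.S23.Defs
import Fermat.Agent.S23.Nice
import Fermat.Agent.S23.P1_LevelOne
import Fermat.Agent.S23.P2_Esymm
import Fermat.Agent.S23.P3_Separating
import Fermat.Agent.S23.H55.Retraction

set_option autoImplicit false

namespace Fermat.Agent.S23.H6

open UpperHalfPlane SlashInvariantForm CongruenceSubgroup
open scoped MatrixGroups ModularForm Manifold

/-- `q`-expansions of level-one forms lie in the `ℂ`-span of the bounded-denominator series. -/
theorem levelOne_mem_bddSpan (K : ℤ) (E : ModularForm 𝒮ℒ K) :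
    qExpansion 1 E ∈ H55.bddSpan := by
  obtain ⟨n, c, B, hB, rfl⟩ := levelOne_span_bddDenom K E
  have hSL : (1 : ℝ) ∈ (𝒮ℒ).strictPeriods := one_mem_strictPeriods_SL
  have h1 : (⇑(∑ i, c i • B i) : ℍ → ℂ) = ∑ i, c i • (⇑(B i) : ℍ → ℂ) := by
    ext z
    simp
  rw [h1, Nice.qExp_sum _ (fun i _ => (nice_of_modularForm hSL (B i)).smul (c i))]
  refine Submodule.sum_mem _ fun i _ => ?_
  rw [Nice.qExp_smul _ (nice_of_modularForm hSL (B i))]
  exact Submodule.smul_mem _ _ (H55.subset_bddSpan (hB i))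

section Main

variable {𝒢 : Subgroup (GL (Fin 2) ℝ)} [𝒢.IsArithmetic] {k w : ℤ}

/-- Abstract form of P9b, for any arithmetic group `𝒢` with strict period `1` which carries a
separating form with bounded denominators. -/
theorem bddDenom_of_rational_aux (h𝒢 : (1 : ℝ) ∈ 𝒢.strictPeriods)
    (g : ModularForm 𝒢 w) (hgB : BddDenom (qExpansion 1 g))
    (hgsep : ∀ h ∈ 𝒮ℒ, h ∉ 𝒢 → (⇑g) ∣[w] h ≠ ⇑g)
    (f : CuspForm 𝒢 k) (hf : ∀ n, ∃ r : ℚ, (qExpansion 1 f).coeff n = (r : ℂ)) :
    BddDenom (qExpansion 1 f) := by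
  have hSL : (1 : ℝ) ∈ (𝒮ℒ).strictPeriods := one_mem_strictPeriods_SL
  have nf : Nice (f : ℍ → ℂ) := nice_of_modularForm h𝒢 f
  have ng : Nice (g : ℍ → ℂ) := nice_of_modularForm h𝒢 g
  -- the level-one coefficient forms
  have nE : ∀ m, Nice (esymmFun f m) := fun m =>
    nice_of_modularForm hSL (H16.esymmForm 𝒮ℒ f m)
  have bE : ∀ m, qExpansion 1 (esymmFun f m) ∈ H55.bddSpan := fun m =>
    levelOne_mem_bddSpan _ (H16.esymmForm 𝒮ℒ f m)
  have nEg : ∀ m, Nice (esymmFun g m) := fun m =>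
    nice_of_modularForm hSL (H16.esymmForm 𝒮ℒ g m)
  have bEg : ∀ m, qExpansion 1 (esymmFun g m) ∈ H55.bddSpan := fun m =>
    levelOne_mem_bddSpan _ (H16.esymmForm 𝒮ℒ g m)
  have nL : ∀ m, Nice (lagrFun f g m) := fun m =>
    nice_of_modularForm hSL (H16.lagrangeForm 𝒮ℒ f g m)
  have bL : ∀ m, qExpansion 1 (lagrFun f g m) ∈ H55.bddSpan := fun m =>
    levelOne_mem_bddSpan _ (H16.lagrangeForm 𝒮ℒ f g m)
  have bg : qExpansion 1 g ∈ H55.bddSpan := H55.subset_bddSpan hgB
  set μ := idx 𝒢 with hμ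
  -- the three relations, as identities between functions
  have R1 : ∑ m ∈ Finset.range (μ + 1),
      ((-1 : ℂ) ^ m) • (esymmFun f m * (f : ℍ → ℂ) ^ (μ - m)) = 0 := by
    ext z
    simpa [mul_assoc] using esymm_relation f z
  have R2 : (f : ℍ → ℂ) * diffFun g = ∑ m ∈ Finset.range μ,
      ((-1 : ℂ) ^ m) • (lagrFun f g m * (g : ℍ → ℂ) ^ (μ - 1 - m)) := by
    ext z
    simpa [mul_assoc] using lagr_relation f g z
  have R3 : diffFun g = ∑ m ∈ Finset.range μ,
      ((-1 : ℂ) ^ m * ((μ - m : ℕ) : ℂ)) • (esymmFun g m * (g : ℍ → ℂ) ^ (μ - 1 - m)) := by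
    ext z
    simpa [mul_assoc] using diff_relation g z
  have nD : Nice (diffFun g) := by
    rw [R3]
    exact Nice.sum _ fun m _ => ((nEg m).mul (ng.pow _)).smul _
  -- `q`-expansions
  have hD : qExpansion 1 (diffFun g) ∈ H55.bddSpan := by
    rw [R3, Nice.qExp_sum _ (fun m _ => ((nEg m).mul (ng.pow _)).smul _)]
    refine Submodule.sum_mem _ fun m _ => ?_
    rw [Nice.qExp_smul _ ((nEg m).mul (ng.pow _)), Nice.qExp_mul (nEg m) (ng.pow _),
      Nice.qExp_pow ng]
    exact Submodule.smul_mem _ _ (H55.bddSpan_mul (bEg m) (H55.bddSpan_pow bg _))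
  have hD0 : qExpansion 1 (diffFun g) ≠ 0 := by
    rw [Ne, nD.qExp_eq_zero_iff]
    exact H16.discFun_ne_zero 𝒮ℒ g hgsep
  have hH : qExpansion 1 f * qExpansion 1 (diffFun g) ∈ H55.bddSpan := by
    rw [← Nice.qExp_mul nf nD, R2, Nice.qExp_sum _ (fun m _ => ((nL m).mul (ng.pow _)).smul _)]
    refine Submodule.sum_mem _ fun m _ => ?_
    rw [Nice.qExp_smul _ ((nL m).mul (ng.pow _)), Nice.qExp_mul (nL m) (ng.pow _),
      Nice.qExp_pow ng]
    exact Submodule.smul_mem _ _ (H55.bddSpan_mul (bL m) (H55.bddSpan_pow bg _))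
  have hrel : ∑ m ∈ Finset.range (μ + 1),
      ((-1 : ℂ) ^ m • qExpansion 1 (esymmFun f m)) * qExpansion 1 f ^ (μ - m) = 0 := by
    have := congrArg (qExpansion 1) R1
    rw [Nice.qExp_sum _ (fun m _ => ((nE m).mul (nf.pow _)).smul _), qExpansion_zero] at this
    rw [← this]
    refine Finset.sum_congr rfl fun m _ => ?_
    rw [Nice.qExp_smul _ ((nE m).mul (nf.pow _)), Nice.qExp_mul (nE m) (nf.pow _),
      Nice.qExp_pow nf, smul_mul_assoc]
  refine H55.bddDenom_of_relations' (qExpansion 1 f) hf (qExpansion 1 (diffFun g)) _ hD hH hD0 rfl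
    μ (fun m => (-1 : ℂ) ^ m • qExpansion 1 (esymmFun f m)) ?_ (fun m _ => ?_) hrel
  · simp [esymmFun_zero, qExpansion_one]
  · exact Submodule.smul_mem _ _ (bE m)

end Main

/-- **P9b**: a cusp form on `Gamma0 N` with rational `q`-expansion has bounded denominators. -/
theorem bddDenom_of_rational (N : ℕ) [NeZero N] (k : ℤ) (f : CuspForm (Gamma0 N) k)
    (hf : ∀ n, ∃ r : ℚ, (qExpansion 1 f).coeff n = (r : ℂ)) : BddDenom (qExpansion 1 f) := by
  obtain ⟨g, hgB, hgsep⟩ := exists_separating N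
  refine bddDenom_of_rational_aux (CongruenceSubgroup.one_mem_strictPeriods_Gamma0 N) g hgB ?_ f hf
  rintro h ⟨γ, rfl⟩ hh
  have hγ : γ ∉ Gamma0 N := fun hγ => hh ⟨γ, hγ, rfl⟩
  exact hgsep γ hγ

end Fermat.Agent.S23.H6
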