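import Mathlib
import Fermat.Prelude.Def_FLTPrelim_Modularity
import Fermat.Prelude.Thm_CongruenceSubgroup_one_mem_strictPeriods_Gamma0
import Fermat.Prelude.Thm_ModularForm_sturm_bound_Gamma0
import Fermat.Agent.S23.H41.Descent

/-!
# S23, package P9a: rational spanning from conjugation-stability

If the space of cusp forms `S_k(Γ₀(N))` is stable under the coefficientwise action of every
ring automorphism of `ℂ` on `q`-expansions (hypothesis `hconj`, package P8), then it is spanned
over `ℂ` by the forms all of whose `q`-expansion coefficients are rational.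
-/

set_option autoImplicit false

noncomputable section

namespace Fermat.Agent.S23.H6

open CongruenceSubgroup UpperHalfPlane ModularFormClass

variable {N : ℕ} {k : ℤ}

theorem one_mem_periods (N : ℕ) :
    (1 : ℝ) ∈ (Subgroup.map (Matrix.SpecialLinearGroup.mapGL ℝ) (Gamma0 N)).strictPeriods :=
  CongruenceSubgroup.one_mem_strictPeriods_Gamma0 N

theorem coeff_add (f g : CuspForm (Gamma0 N) k) (n : ℕ) :
    (qExpansion 1 ⇑(f + g)).coeff n = (qExpansion 1 ⇑f).coeff n + (qExpansion 1 ⇑g).coeff n := by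
  simp only [FunLike.coe_add]
  rw [ModularForm.qExpansion_add one_pos (one_mem_periods N) f g, map_add]

theorem coeff_smul (c : ℂ) (f : CuspForm (Gamma0 N) k) (n : ℕ) :
    (qExpansion 1 ⇑(c • f)).coeff n = c * (qExpansion 1 ⇑f).coeff n := by
  have h1 : ⇑(c • f) = c • ⇑f := by
    ext z
    simp
  simp only [h1]
  rw [ModularForm.qExpansion_smul one_pos (one_mem_periods N) c f]
  simp

/-- The `n`-th `q`-expansion coefficient as a `ℂ`-linear functional on cusp forms. -/
def coeffLin (N : ℕ) (k : ℤ) (n : ℕ) : CuspForm (Gamma0 N) k →ₗ[ℂ] ℂ where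
  toFun f := (qExpansion 1 ⇑f).coeff n
  map_add' f g := coeff_add f g n
  map_smul' c f := by simpa using coeff_smul c f n

@[simp] theorem coeffLin_apply (n : ℕ) (f : CuspForm (Gamma0 N) k) :
    coeffLin N k n f = (qExpansion 1 ⇑f).coeff n := rfl

/-- The Sturm bound for `Γ₀(N)` in weight `k`. -/
def sturmB (N : ℕ) (k : ℤ) : ℕ := (k * (Gamma0 N).index).toNat / 12

/-- Truncation of the `q`-expansion at the Sturm bound, as a linear map. -/
def truncLin (N : ℕ) (k : ℤ) : CuspForm (Gamma0 N) k →ₗ[ℂ] (Fin (sturmB N k + 1) → ℂ) :=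
  LinearMap.pi fun i => coeffLin N k i

@[simp] theorem truncLin_apply (f : CuspForm (Gamma0 N) k) (i : Fin (sturmB N k + 1)) :
    truncLin N k f i = (qExpansion 1 ⇑f).coeff i := rfl

theorem truncLin_injective (N : ℕ) [NeZero N] (k : ℤ) : Function.Injective (truncLin N k) := by
  refine (injective_iff_map_eq_zero _).mpr fun f hf ↦ ?_
  have hmf : (ModularFormClass.modularForm f : ModularForm (Gamma0 N) k) = 0 := by
    refine ModularForm.sturm_bound_Gamma0 N _ fun n hn ↦ ?_
    have := congrFun hf ⟨n, Nat.lt_succ_of_le hn⟩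
    exact this
  have hcoe : (⇑f : ℍ → ℂ) = 0 := by
    have := congrArg (fun F : ModularForm (Gamma0 N) k ↦ (⇑F : ℍ → ℂ)) hmf
    simpa using this
  exact DFunLike.coe_injective (hcoe.trans (FunLike.coe_zero (F := CuspForm (Gamma0 N) k)).symm)

/-- The set of cusp forms with rational `q`-expansion coefficients. -/
def ratForms (N : ℕ) (k : ℤ) : Set (CuspForm (Gamma0 N) k) :=
  {g | ∀ n, ∃ r : ℚ, (qExpansion 1 ⇑g).coeff n = (r : ℂ)}

/-- **P9a.** Conjugation-stability implies that cusp forms are spanned by the forms with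
rational `q`-expansions. -/
theorem span_rational_of_conj (N : ℕ) [NeZero N] (k : ℤ)
    (hconj : ∀ (σ : ℂ ≃+* ℂ) (f : CuspForm (Gamma0 N) k), ∃ f' : CuspForm (Gamma0 N) k,
      ∀ n, (qExpansion 1 ⇑f').coeff n = σ ((qExpansion 1 ⇑f).coeff n)) :
    (⊤ : Submodule ℂ (CuspForm (Gamma0 N) k)) ≤ Submodule.span ℂ (ratForms N k) := by
  classical
  set T := truncLin N k with hT
  have hTinj : Function.Injective T := truncLin_injective N k
  set W : Submodule ℂ (Fin (sturmB N k + 1) → ℂ) := LinearMap.range T with hW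
  -- `W` is stable under coordinatewise automorphisms
  have hstab : ∀ σ : ℂ ≃+* ℂ, ∀ v ∈ W, (fun i => σ (v i)) ∈ W := by
    rintro σ v ⟨f, rfl⟩
    obtain ⟨f', hf'⟩ := hconj σ f
    refine ⟨f', ?_⟩
    funext i
    simp [hT, hf']
  have hspan := H41.span_rational_points_eq W hstab
  -- every rational point of `W` comes from a form with rational coefficients
  have hgen : {v : Fin (sturmB N k + 1) → ℂ | v ∈ W ∧ ∀ i, ∃ q : ℚ, (q : ℂ) = v i} ⊆
      T '' (ratForms N k) := by
    rintro v ⟨⟨g, rfl⟩, hrat⟩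
    refine ⟨g, ?_, rfl⟩
    intro n
    have hfix : ∀ σ : ℂ ≃+* ℂ, σ ((qExpansion 1 ⇑g).coeff n) = (qExpansion 1 ⇑g).coeff n := by
      intro σ
      obtain ⟨g', hg'⟩ := hconj σ g
      have hgg' : g' = g := by
        apply hTinj
        funext i
        obtain ⟨q, hq⟩ := hrat i
        have h1 : T g' i = σ (T g i) := by simp [hT, hg']
        rw [h1, ← hq]
        simp
      rw [← hg' n, hgg']
    obtain ⟨q, hq⟩ := H41.exists_ratCast_eq_of_forall_ringEquiv_fixed _ hfix
    exact ⟨q, hq.symm⟩
  intro f _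
  have hfW : T f ∈ W := ⟨f, rfl⟩
  rw [← hspan] at hfW
  have h2 : T f ∈ Submodule.map T (Submodule.span ℂ (ratForms N k)) := by
    rw [Submodule.map_span]
    exact Submodule.span_mono hgen hfW
  obtain ⟨g, hg, hgf⟩ := h2
  rwa [← hTinj hgf]

end Fermat.Agent.S23.H6
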