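/-
S23, package P9c (helper6): conjugation-stability of `S_k(Γ₀(N))` (package P8, hypothesis
`hconj`) implies the integral structure `CuspForm.HasIntegralStructure N k`.

P9a gives that the forms with rational `q`-expansion span; P9b gives that each of them has
bounded denominators, hence is a complex multiple of a form with integral `q`-expansion.
-/
import Mathlib
import Fermat.Prelude.Def_CuspForm_IntegralStructure
import Fermat.Agent.S23.H6.Rational
import Fermat.Agent.S23.H6.BddOfRational

set_option autoImplicit false

namespace Fermat.Agent.S23.H6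

open CongruenceSubgroup UpperHalfPlane ModularFormClass

/-- A cusp form with rational `q`-expansion is a complex multiple of a form in the integral
lattice. -/
theorem mem_span_intLattice_of_rational (N : ℕ) [NeZero N] (k : ℤ)
    (g : CuspForm (Gamma0 N) k) (hg : g ∈ ratForms N k) :
    g ∈ Submodule.span ℂ
      ((CuspForm.intLattice N k : Submodule ℤ (CuspForm (Gamma0 N) k)) :
        Set (CuspForm (Gamma0 N) k)) := by
  obtain ⟨M, hM, a, ha⟩ := bddDenom_of_rational N k g hg
  have hMg : (M : ℂ) • g ∈ CuspForm.intLattice N k := by
    refine Submodule.subset_span fun n => ⟨PowerSeries.coeff n a, ?_⟩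
    have h1 := congrArg (PowerSeries.coeff n) ha
    change (qExpansion 1 ⇑((M : ℂ) • g)).coeff n = _
    rw [coeff_smul]
    simpa using h1
  have hM' : (M : ℂ) ≠ 0 := by exact_mod_cast hM.ne'
  have h2 : g = (M : ℂ)⁻¹ • ((M : ℂ) • g) := by
    rw [smul_smul, inv_mul_cancel₀ hM', one_smul]
  rw [h2]
  exact Submodule.smul_mem _ _ (Submodule.subset_span hMg)

/-- **P9c.** Conjugation-stability implies the integral structure. -/
theorem hasIntegralStructure_of_conj (N : ℕ) [NeZero N] (k : ℤ)
    (hconj : ∀ (σ : ℂ ≃+* ℂ) (f : CuspForm (Gamma0 N) k), ∃ f' : CuspForm (Gamma0 N) k,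
      ∀ n, (qExpansion 1 ⇑f').coeff n = σ ((qExpansion 1 ⇑f).coeff n)) :
    CuspForm.HasIntegralStructure N k := by
  rw [CuspForm.HasIntegralStructure, eq_top_iff]
  exact (span_rational_of_conj N k hconj).trans
    (Submodule.span_le.2 fun g hg => mem_span_intLattice_of_rational N k g hg)

end Fermat.Agent.S23.H6
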